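import Mathlib
import Fermat.Agent.H25.CFT.Interfaces
import Fermat.Agent.H43.Cft.GaloisSUnit

/-!
# P-CFT, row 598 (2I-NORMGEN): a split prime outside `T` is generated, up to `T`,
by a global norm (helper90)

`normGenerator : Fermat.Agent.H25.CFT.NormGeneratorStatement`.

Proof: pick a prime `W` of `L` over `w`, a generator `ϖ` of `W` up to `T_L` (from `Cl_{T_L}(L) = 0`)
and put `n = N_{L/K} ϖ = ∏ σ ϖ`.  The valuation of `σ ϖ` at a prime `V` is the valuation of `ϖ`
at the prime `σ⁻¹ V` (helper43's `galPrime`), and the stabiliser of `W` in the Galois group (of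
prime order) is trivial because `w` splits.
-/

set_option autoImplicit false
set_option linter.unusedSectionVars false

open NumberField IsDedekindDomain
open scoped Pointwise

namespace Fermat.Agent.H90.NormGen

open Fermat.Agent.H43.Cft

section aux

variable {K : Type*} [Field K] [NumberField K]
variable {L : Type*} [Field L] [NumberField L] [Algebra K L]

lemma ng_smul_eq_intAut (σ : L ≃ₐ[K] L) (x : 𝓞 L) : σ • x = intAut σ x := by
  apply RingOfIntegers.ext
  rfl

/-- helper43's `galPrime σ w` is the prime `σ⁻¹ • w` for Mathlib's pointwise action. -/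
lemma ng_galPrime_asIdeal (σ : L ≃ₐ[K] L) (w : HeightOneSpectrum (𝓞 L)) :
    (galPrime σ w).asIdeal = σ⁻¹ • w.asIdeal := by
  ext x
  rw [Ideal.mem_inv_pointwise_smul_iff, ng_smul_eq_intAut]
  rfl

lemma ng_galPrime_one (w : HeightOneSpectrum (𝓞 L)) : galPrime (1 : L ≃ₐ[K] L) w = w := by
  apply HeightOneSpectrum.ext
  rw [ng_galPrime_asIdeal, inv_one, one_smul]

/-- The valuation of a norm at a prime of `L`. -/
lemma ng_valuation_norm [IsGalois K L] (V : HeightOneSpectrum (𝓞 L)) (y : L) :
    V.valuation L (algebraMap K L (Algebra.norm K y)) =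
      ∏ σ : L ≃ₐ[K] L, (galPrime σ V).valuation L y := by
  rw [Algebra.norm_eq_prod_automorphisms, map_prod]
  exact Finset.prod_congr rfl fun σ _ => (valuation_galPrime σ V y).symm

/-- The Galois group acts transitively on the primes above a given prime. -/
lemma ng_exists_galPrime_eq [IsGalois K L] (W W' : HeightOneSpectrum (𝓞 L))
    (h : W.under (𝓞 K) = W'.under (𝓞 K)) : ∃ σ : L ≃ₐ[K] L, galPrime σ W = W' := by
  have : W.asIdeal.LiesOver (W.under (𝓞 K)).asIdeal := ⟨rfl⟩
  have : W'.asIdeal.LiesOver (W.under (𝓞 K)).asIdeal := ⟨by rw [h]; rfl⟩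
  have := W.isPrime
  have := W'.isPrime
  obtain ⟨σ, hσ⟩ := Ideal.exists_smul_eq_of_isGaloisGroup (W.under (𝓞 K)).asIdeal
    W.asIdeal W'.asIdeal (L ≃ₐ[K] L)
  refine ⟨σ⁻¹, HeightOneSpectrum.ext ?_⟩
  rw [ng_galPrime_asIdeal, inv_inv, hσ]

/-- In prime degree, the stabiliser of a prime above a split prime is trivial. -/
lemma ng_galPrime_ne [IsGalois K L] {p : ℕ} (hp : p.Prime) (hdeg : Module.finrank K L = p)
    (W : HeightOneSpectrum (𝓞 L)) (hsplit : ¬ Nonsplit K L (W.under (𝓞 K)))
    (σ : L ≃ₐ[K] L) (hσ : σ ≠ 1) : galPrime σ W ≠ W := by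
  intro hfix
  apply hsplit
  have hcard : Nat.card (L ≃ₐ[K] L) = p := by rw [IsGalois.card_aut_eq_finrank, hdeg]
  have : Fact p.Prime := ⟨hp⟩
  have hstab : σ⁻¹ ∈ MulAction.stabilizer (L ≃ₐ[K] L) W.asIdeal := by
    rw [MulAction.mem_stabilizer_iff, ← ng_galPrime_asIdeal, hfix]
  have hle : Subgroup.zpowers σ ≤ MulAction.stabilizer (L ≃ₐ[K] L) W.asIdeal := by
    rw [Subgroup.zpowers_le]
    exact (Subgroup.inv_mem_iff _).mp hstab
  have hall : ∀ τ : L ≃ₐ[K] L, galPrime τ W = W := by
    intro τ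
    have hmem : τ ∈ Subgroup.zpowers σ := mem_zpowers_of_prime_card hcard hσ
    have h2 : τ⁻¹ ∈ MulAction.stabilizer (L ≃ₐ[K] L) W.asIdeal :=
      Subgroup.inv_mem _ (hle hmem)
    apply HeightOneSpectrum.ext
    rw [ng_galPrime_asIdeal]
    exact MulAction.mem_stabilizer_iff.mp h2
  intro W1 W2 h1 h2
  obtain ⟨τ1, rfl⟩ := ng_exists_galPrime_eq W W1 h1.symm
  obtain ⟨τ2, rfl⟩ := ng_exists_galPrime_eq W W2 h2.symm
  rw [hall, hall]

end aux

/-- **2I-NORMGEN** (row 598). -/
theorem normGenerator.{u, v} : Fermat.Agent.H25.CFT.NormGeneratorStatement.{u, v} := by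
  intro K _ _ L _ _ _ p T hC hCl w hwT hsplit
  have := hC.galois
  obtain ⟨W, hW⟩ := exists_prime_above K L w
  have hWT : W ∉ primesAbove K L T := by
    rw [mem_primesAbove, hW]
    exact hwT
  obtain ⟨ϖ, hϖ1, hϖ2⟩ := hCl W hWT
  refine ⟨Units.map (Algebra.norm K : L →* K) ϖ, ⟨ϖ, rfl⟩, ?_, ?_⟩
  · -- the valuation at `w`
    have h1 : W.valuation L (algebraMap K L (Algebra.norm K (ϖ : L))) =
        WithZero.exp (-1 : ℤ) := by
      rw [ng_valuation_norm, Finset.prod_eq_single (1 : L ≃ₐ[K] L)]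
      · rw [ng_galPrime_one]
        exact hϖ1
      · intro σ _ hσ
        apply hϖ2
        · exact galPrime_notMem σ hWT
        · exact ng_galPrime_ne hC.prime hC.degree W (by rw [hW]; exact hsplit) σ hσ
      · intro h
        exact absurd (Finset.mem_univ _) h
    rw [valuation_algebraMap_eq_pow, hW] at h1
    have he : w.asIdeal.ramificationIdx' W.asIdeal = 1 := by
      have : W.asIdeal.LiesOver w.asIdeal := ⟨by rw [← hW]; rfl⟩
      have := W.isPrime
      rw [Ideal.ramificationIdx'_eq_ramificationIdx w.asIdeal W.asIdeal w.ne_bot]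
      exact hC.unram W (by rw [hW]; exact hwT)
    rw [he, pow_one] at h1
    exact h1
  · intro v' hv'T hv'w
    obtain ⟨V', hV'⟩ := exists_prime_above K L v'
    have h1 : V'.valuation L (algebraMap K L (Algebra.norm K (ϖ : L))) = 1 := by
      rw [ng_valuation_norm]
      apply Finset.prod_eq_one
      intro σ _
      apply hϖ2
      · rw [mem_primesAbove, under_galPrime, hV']
        exact hv'T
      · intro h
        apply hv'w
        rw [← hV', ← under_galPrime σ V', h, hW]
    rw [valuation_algebraMap_eq_one_iff, hV'] at h1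
    exact h1

end Fermat.Agent.H90.NormGen
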