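import Fermat.Agent.H54.Cft.N6Interfaces

/-!
# P-CFT, row 823 (N6-T): `H¹(G_S(L), E_S)` is a torsion group (helper90)

`esTorsion : Fermat.Agent.H54.Cft.ESTorsionStatement`.

Proof: an `S`-level cocycle `c` is right-invariant under `N = G_F ∩ G_L`, a subgroup of finite
index `m` of `G_L`, hence constant on the left cosets `τ N`.  Put `w = ∏_{τ ∈ G_L / N} c τ ∈ E_S`.
Left translation by `σ ∈ G_L` permutes `G_L / N`, so
`w = ∏ c (σ τ) = ∏ σ (c τ) * c σ = σ w * (c σ) ^ m`, i.e. `(c σ) ^ m = σ u / u` with `u = w⁻¹`.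
(No normality of `N` is needed.)
-/

set_option autoImplicit false
set_option linter.style.haveILetI false

namespace Fermat.Agent.H90.N6T

open Fermat.Agent.H54.Cft IntermediateField

noncomputable section

/-- The fixing subgroup of a finite extension of `ℚ` has finite index in `G_ℚ`. -/
theorem finiteIndex_fixingSubgroup_n6 (F : IntermediateField ℚ Qbar)
    [FiniteDimensional ℚ F] : F.fixingSubgroup.FiniteIndex := by
  haveI : IsGalois ℚ Qbar := by
    have h : (DivisionRing.toRatAlgebra : Algebra ℚ (AlgebraicClosure ℚ)) =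
        AlgebraicClosure.instAlgebra ℚ := Subsingleton.elim _ _
    show @IsGalois ℚ _ (AlgebraicClosure ℚ) _ DivisionRing.toRatAlgebra
    rw [h]
    infer_instance
  refine ⟨?_⟩
  rw [← IntermediateField.finrank_eq_fixingSubgroup_index]
  exact Module.finrank_pos.ne'

/-- **[N6-T]** -/
theorem esTorsion : ESTorsionStatement := by
  intro S L c hc
  obtain ⟨hcoc, ⟨F, hF, hinv⟩, hES⟩ := hc
  classical
  haveI : FiniteDimensional ℚ F := hF.1
  haveI : F.fixingSubgroup.FiniteIndex := finiteIndex_fixingSubgroup_n6 F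
  -- the subgroup `N = G_F ∩ G_L` of `G_L`
  let N : Subgroup (GalL L) := F.fixingSubgroup.subgroupOf L.fixingSubgroup
  haveI hNfin : N.FiniteIndex := inferInstance
  have hmemN : ∀ n : GalL L, n ∈ N ↔ (n : GQ) ∈ F.fixingSubgroup :=
    fun n => Subgroup.mem_subgroupOf
  -- `c` on the coset space
  let cbar : GalL L ⧸ N → Qbarˣ := Quotient.lift c (by
    intro g h hgh
    have h1 : g⁻¹ * h ∈ N := QuotientGroup.leftRel_apply.mp hgh
    have h2 := hinv g (g⁻¹ * h) ((hmemN _).mp h1)
    rw [mul_inv_cancel_left] at h2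
    exact h2.symm)
  have hcbar : ∀ τ : GalL L, cbar (τ : GalL L ⧸ N) = c τ := fun τ => rfl
  haveI : Fintype (GalL L ⧸ N) := Subgroup.fintypeQuotientOfFiniteIndex
  set w : Qbarˣ := ∏ q : GalL L ⧸ N, cbar q with hw
  have hwES : w ∈ Fermat.Agent.H76.Cft.ES S := by
    refine Subgroup.prod_mem _ fun q _ => ?_
    induction q using QuotientGroup.induction_on with
    | H τ => rw [hcbar]; exact hES τ
  refine ⟨Fintype.card (GalL L ⧸ N), Fintype.card_pos, w⁻¹, Subgroup.inv_mem _ hwES,
    fun σ => ?_⟩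
  have h1 : ∀ q : GalL L ⧸ N, cbar (σ • q) = galU (σ : GQ) (cbar q) * c σ := by
    intro q
    induction q using QuotientGroup.induction_on with
    | H τ => exact hcoc σ τ
  have h2 : ∏ q : GalL L ⧸ N, cbar (σ • q) = w :=
    Equiv.prod_comp (MulAction.toPerm σ) cbar
  have h3 : ∏ q : GalL L ⧸ N, cbar (σ • q) =
      galU (σ : GQ) w * c σ ^ Fintype.card (GalL L ⧸ N) := by
    simp_rw [h1]
    rw [Finset.prod_mul_distrib, Finset.prod_const, Finset.card_univ, ← map_prod]
  have h4 : w = galU (σ : GQ) w * c σ ^ Fintype.card (GalL L ⧸ N) := h2.symm.trans h3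
  rw [Pi.pow_apply, map_inv, div_eq_mul_inv, inv_inv]
  have h5 := congrArg (fun z => (galU (σ : GQ) w)⁻¹ * z) h4
  simp only [inv_mul_cancel_left] at h5
  exact h5.symm

end

end Fermat.Agent.H90.N6T
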