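import Fermat.Agent.H90.Cft.CobEltOfDiv
import Fermat.Agent.H80.CFT.Div

/-!
# P-CFT, BRAUER-S block, row 927 (BS-4): `CobEltStatement`, unconditional (helper90)

`cobElt_of_div` applied to helper80's `divCoboundary`.
-/

set_option autoImplicit false

namespace Fermat.Agent.H90.BS4

/-- **[B3]** (BS-4), unconditional. -/
theorem cobElt : Fermat.Agent.H76.Cft.CobEltStatement :=
  cobElt_of_div Fermat.Agent.H80.Div.divCoboundary

end Fermat.Agent.H90.BS4
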