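import Fermat.Agent.H76.Cft.BrauerSInterfaces
import Fermat.Agent.H54.Cft.GO2Interfaces
import Fermat.Agent.H96.Cft.KummerDivisible

/-!
# P-CFT, BRAUER-S block, row 927 (BS-4): `CobEltStatement` from `DivCoboundaryStatement`
(helper90)

`cobElt_of_div : DivCoboundaryStatement → CobEltStatement`.  With `n = p ^ a * m₀`, `p ∤ m₀`,
`m₀ * ms ≡ 1 mod p`: `m = m₀ * ms`, `β' = β ^ ms`.
-/

set_option autoImplicit false
set_option linter.style.haveILetI false

namespace Fermat.Agent.H90.BS4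

open Fermat.Agent.H54.Cft
open Fermat.Agent.H76.Cft (QS ES IsPlaceOutside IsUnitAt IsUnitOutside IsPowValOutside CobEltStatement)

/-- value one means unit -/
theorem isUnitAt_of_val_eq_one {A : ValuationSubring Qbar} {x : Qbarˣ}
    (h : A.valuation (x : Qbar) = 1) : IsUnitAt A x := by
  refine ⟨?_, ?_⟩
  · rw [← A.valuation_le_one_iff, h]
  · rw [← A.valuation_le_one_iff, Units.val_inv_eq_inv_val, map_inv₀, h, inv_one]

/-- unit means value one -/
theorem val_eq_one_of_isUnitAt {A : ValuationSubring Qbar} {x : Qbarˣ}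
    (hx : IsUnitAt A x) : A.valuation (x : Qbar) = 1 := by
  obtain ⟨h1, h2⟩ := hx
  rw [← A.valuation_le_one_iff] at h1 h2
  rw [Units.val_inv_eq_inv_val, map_inv₀] at h2
  refine le_antisymm h1 ?_
  have hv0 : A.valuation (x : Qbar) ≠ 0 := (Valuation.ne_zero_iff _).mpr x.ne_zero
  have := mul_le_mul' h2 (le_refl (A.valuation (x : Qbar)))
  rwa [inv_mul_cancel₀ hv0, one_mul] at this

/-- **[B3] from [DIV]**. -/
theorem cobElt_of_div (hD : DivCoboundaryStatement) : CobEltStatement := by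
  intro p _ S _ K hK b hb hbQ hdb
  have hp : p.Prime := Fact.out
  haveI : FiniteDimensional ℚ K := hK.1
  haveI : NumberField K := ⟨⟩
  have hdb' : ∀ g h : GalL K, galU (g : GQ) (b h) * b g / b (g * h) ∈ ES S := by
    intro g h
    refine ⟨?_, fun A hA => hdb g h A hA⟩
    have h1 : ((galU (g : GQ) (b h) * b g / b (g * h) : Qbarˣ) : Qbar) =
        (g : GQ) ((b h : Qbarˣ) : Qbar) * ((b g : Qbarˣ) : Qbar) /
          ((b (g * h) : Qbarˣ) : Qbar) := by
      rw [Units.val_div_eq_div_val, Units.val_mul, coe_galU]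
    rw [h1]
    exact (QS S).div_mem ((QS S).mul_mem
      (Fermat.Agent.H96.Cft.apply_mem_QS S (g : GQ) (hbQ h)) (hbQ g)) (hbQ (g * h))
  obtain ⟨n, β, hn, hβQ, hval, hγ⟩ := hD S K hK b hb hbQ hdb'
  obtain ⟨a, m₀, hm₀, hnm⟩ := Nat.exists_eq_pow_mul_and_not_dvd hn.ne' p hp.ne_one
  have hcop : Nat.Coprime m₀ p := ((Nat.Prime.coprime_iff_not_dvd hp).mpr hm₀).symm
  obtain ⟨ms, -, hms⟩ := Nat.exists_mul_mod_eq_one_of_coprime hcop hp.one_lt
  refine ⟨a, m₀ * ms, β ^ ms, hms, ?_, ?_, ?_⟩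
  · rw [Units.val_pow_eq_pow_val]
    exact pow_mem hβQ ms
  · intro A hA
    obtain ⟨γ, hγQ, hγv⟩ := hγ A hA
    refine ⟨γ ^ (m₀ * ms), ?_, ?_⟩
    · rw [Units.val_pow_eq_pow_val]
      exact pow_mem hγQ _
    · apply isUnitAt_of_val_eq_one
      have hγ0 : A.valuation (γ : Qbar) ≠ 0 := (Valuation.ne_zero_iff _).mpr γ.ne_zero
      rw [Units.val_div_eq_div_val, map_div₀, Units.val_pow_eq_pow_val, map_pow,
        Units.val_pow_eq_pow_val, Units.val_pow_eq_pow_val, map_pow, map_pow, hγv, hnm]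
      rw [← pow_mul, ← pow_mul]
      have e : p ^ a * m₀ * ms = m₀ * ms * p ^ a := by ring
      rw [e]
      exact div_self (pow_ne_zero _ hγ0)
  · intro g A hA
    apply isUnitAt_of_val_eq_one
    have h1 := hval A hA g
    have hβ0 : A.valuation (β : Qbar) ≠ 0 := (Valuation.ne_zero_iff _).mpr β.ne_zero
    have hgβ0 : A.valuation ((g : GQ) (β : Qbar)) ≠ 0 :=
      (Valuation.ne_zero_iff _).mpr (by simp)
    rw [Units.val_div_eq_div_val, coe_galU, map_div₀] at h1
    rw [Units.val_div_eq_div_val, Units.val_mul, Units.val_pow_eq_pow_val, map_div₀, map_mul,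
      map_pow, coe_galU, Units.val_pow_eq_pow_val, map_pow, map_pow, map_pow]
    have e : m₀ * ms * p ^ a = n * ms := by rw [hnm]; ring
    rw [e, pow_mul, h1, div_pow]
    field_simp
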