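import Mathlib

/-!
# P-CFT (helper90): the algebraic core of [DIV] / BS-4

* `exists_primitive_of_perm_cocycle` : `H¹` of a permutation module vanishes, explicitly
  (right-action form, orbit representatives);
* `exists_principal_multiple` : for a number field `F` there is `h > 0` (the class number) such
  that for every finitely supported `D : primes → ℤ` some `β ∈ Fˣ` has `ord_w β = h * D w`
  at all primes `w`.
-/

set_option autoImplicit false
set_option linter.style.haveILetI false

namespace Fermat.Agent.H90.DivCore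

open IsDedekindDomain NumberField
open scoped nonZeroDivisors

/-- **`H¹` of a permutation module vanishes** (explicit form).  `r` is a right action of `G` on
`X` (`r g w = g⁻¹ w`), `φ` a cocycle `φ (g h) w = φ h (g⁻¹ w) + φ g w` vanishing on
stabilisers.  Then `φ g w = D (g⁻¹ w) - D w`, and `D` is supported on the orbits of the
support of `φ`. -/
theorem exists_primitive_of_perm_cocycle {G X : Type*} [Group G] (r : G → X → X)
    (r_one : ∀ w, r 1 w = w) (r_mul : ∀ g h w, r (g * h) w = r h (r g w))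
    (φ : G → X → ℤ) (hφ : ∀ g h w, φ (g * h) w = φ h (r g w) + φ g w)
    (hT : ∀ s w, r s w = w → φ s w = 0) :
    ∃ D : X → ℤ, (∀ g w, φ g w = D (r g w) - D w) ∧
      ∀ w, D w ≠ 0 → ∃ h w₀, φ h w₀ ≠ 0 ∧ w = r h w₀ := by
  classical
  let s : Setoid X :=
    { r := fun w w' => ∃ g, r g w = w'
      iseqv := ⟨fun w => ⟨1, r_one w⟩,
        fun {w w'} ⟨g, hg⟩ => ⟨g⁻¹, by rw [← hg, ← r_mul, mul_inv_cancel, r_one]⟩,
        fun {w w' w''} ⟨g, hg⟩ ⟨h, hh⟩ => ⟨g * h, by rw [r_mul, hg, hh]⟩⟩ }
  let rep : X → X := fun w => Quotient.out (Quotient.mk s w)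
  have hrep : ∀ w, ∃ h, r h (rep w) = w := fun w => Quotient.mk_out (s := s) w
  choose hh hhh using hrep
  have hrep_eq : ∀ g w, rep (r g w) = rep w := by
    intro g w
    have : Quotient.mk s (r g w) = Quotient.mk s w :=
      Quotient.sound (s.symm ⟨g, rfl⟩)
    show Quotient.out (Quotient.mk s (r g w)) = Quotient.out (Quotient.mk s w)
    rw [this]
  have key : ∀ h h' w₀, r h w₀ = r h' w₀ → φ h w₀ = φ h' w₀ := by
    intro h h' w₀ e
    have hs : r (h' * h⁻¹) w₀ = w₀ := by
      rw [r_mul, ← e, ← r_mul, mul_inv_cancel, r_one]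
    have h0 := hT _ _ hs
    have h1 := hφ (h' * h⁻¹) h w₀
    rw [inv_mul_cancel_right, hs, h0, add_zero] at h1
    exact h1.symm
  refine ⟨fun w => φ (hh w) (rep w), ?_, ?_⟩
  · intro g w
    show φ g w = φ (hh (r g w)) (rep (r g w)) - φ (hh w) (rep w)
    rw [hrep_eq g w]
    have e : r (hh (r g w)) (rep w) = r (hh w * g) (rep w) := by
      have h1 := hhh (r g w)
      rw [hrep_eq g w] at h1
      rw [h1, r_mul, hhh w]
    rw [key _ _ _ e, hφ, hhh w]
    ring
  · intro w hw
    exact ⟨hh w, rep w, hw, (hhh w).symm⟩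

/-- For a number field `F` with class number `h`: every prime `w` has a "generator of `w ^ h`",
an element with `w`-valuation `exp (-h)` and trivial valuation at all other primes. -/
theorem exists_generator_pow (F : Type*) [Field F] [NumberField F] :
    ∃ h : ℕ, 0 < h ∧ ∀ w : HeightOneSpectrum (𝓞 F), ∃ π : Fˣ,
      w.valuationOfNeZero π = Multiplicative.ofAdd (-(h : ℤ)) ∧
      ∀ w' : HeightOneSpectrum (𝓞 F), w' ≠ w → w'.valuationOfNeZero π = 1 := by
  classical
  refine ⟨Fintype.card (ClassGroup (𝓞 F)), Fintype.card_pos, fun w => ?_⟩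
  set h := Fintype.card (ClassGroup (𝓞 F)) with hh
  have hh0 : h ≠ 0 := Fintype.card_ne_zero
  have hI : w.asIdeal ∈ (Ideal (𝓞 F))⁰ := mem_nonZeroDivisors_of_ne_zero w.ne_bot
  have h1 : ClassGroup.mk0 ((⟨w.asIdeal, hI⟩ : (Ideal (𝓞 F))⁰) ^ h) = 1 := by
    rw [map_pow, hh, pow_card_eq_one]
  rw [ClassGroup.mk0_eq_one_iff] at h1
  obtain ⟨π₀, hπ₀⟩ := h1.principal
  have hπ₀' : w.asIdeal ^ h = Ideal.span {π₀} := by simpa using hπ₀
  have hπ₀0 : π₀ ≠ 0 := by
    rintro rfl
    have h0 : w.asIdeal ^ h = ⊥ := by rw [hπ₀']; simp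
    exact w.ne_bot (pow_eq_zero_iff hh0 |>.mp h0)
  have hv : w.intValuation π₀ = WithZero.exp (-(h : ℤ)) := by
    rw [w.intValuation_if_neg hπ₀0, ← hπ₀', Associates.mk_pow,
      Associates.count_pow (Associates.mk_ne_zero.mpr w.ne_bot) w.associates_irreducible,
      Associates.count_self w.associates_irreducible, mul_one]
  have hv' : ∀ w' : HeightOneSpectrum (𝓞 F), w' ≠ w → w'.intValuation π₀ = 1 := by
    intro w' hne
    rw [HeightOneSpectrum.intValuation_eq_one_iff]
    intro hmem
    have hle : w.asIdeal ^ h ≤ w'.asIdeal := by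
      rw [hπ₀', Ideal.span_singleton_le_iff_mem]
      exact hmem
    have hle' : w.asIdeal ≤ w'.asIdeal := w'.isPrime.le_of_pow_le hle
    exact hne (HeightOneSpectrum.ext (w.isMaximal.eq_of_le w'.isPrime.ne_top hle').symm)
  have hπF : (algebraMap (𝓞 F) F π₀) ≠ 0 := by
    intro h0
    exact hπ₀0 ((FaithfulSMul.algebraMap_injective (𝓞 F) F) (h0.trans (map_zero _).symm))
  refine ⟨Units.mk0 _ hπF, ?_, ?_⟩
  · apply WithZero.coe_injective
    rw [HeightOneSpectrum.valuationOfNeZero_eq, Units.val_mk0,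
      HeightOneSpectrum.valuation_of_algebraMap, hv]
    rfl
  · intro w' hne
    apply WithZero.coe_injective
    rw [HeightOneSpectrum.valuationOfNeZero_eq, Units.val_mk0,
      HeightOneSpectrum.valuation_of_algebraMap, hv' w' hne]
    rfl

/-- **Class number**: for a number field `F` there is `h > 0` such that every finitely
supported `D : primes → ℤ` has `h * D = div β` for some `β ∈ Fˣ` (in the normalisation
`ord_w β = toAdd (w.valuationOfNeZero β)`). -/
theorem exists_principal_multiple (F : Type*) [Field F] [NumberField F] :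
    ∃ h : ℕ, 0 < h ∧
      ∀ (T : Finset (HeightOneSpectrum (𝓞 F))) (D : HeightOneSpectrum (𝓞 F) → ℤ),
        (∀ w, D w ≠ 0 → w ∈ T) → ∃ β : Fˣ, ∀ w : HeightOneSpectrum (𝓞 F),
          Multiplicative.toAdd (w.valuationOfNeZero β) = h * D w := by
  classical
  obtain ⟨h, hpos, hπ⟩ := exists_generator_pow F
  choose π hπ1 hπ2 using hπ
  refine ⟨h, hpos, fun T D hD => ⟨∏ w ∈ T, (π w) ^ (- D w), fun w' => ?_⟩⟩
  rw [map_prod]
  by_cases hw' : w' ∈ T
  · rw [Finset.prod_eq_single w']
    · rw [map_zpow, hπ1, toAdd_zpow, toAdd_ofAdd]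
      ring
    · intro w _ hne
      rw [map_zpow, hπ2 w w' hne.symm, one_zpow]
    · intro hn
      exact absurd hw' hn
  · rw [Finset.prod_eq_one]
    · have h0 : D w' = 0 := by
        by_contra h
        exact hw' (hD w' h)
      simp [h0]
    · intro w hw
      have hne : w' ≠ w := by
        rintro rfl
        exact hw' hw
      rw [map_zpow, hπ2 w w' hne, one_zpow]

end Fermat.Agent.H90.DivCore
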