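import Fermat.Agent.H54.Cft.N6Interfaces
import Fermat.Agent.H96.Cft.KummerDivisible

/-!
# P-CFT (helper90): the level field of an `S`-level cochain with values in `ℚ_S` ([DIV], G1)

`exists_level_field`: an `S`-level cochain `b : G_K → ℚ̄ˣ` with values in `ℚ_S` has finitely
many values, and there is a finite normal extension `F/ℚ` inside `ℚ_S` containing all values of
`b` such that `b` is right-invariant under `G_F ∩ G_K`.
-/

set_option autoImplicit false
set_option linter.style.haveILetI false

namespace Fermat.Agent.H90.DivGlue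

open Fermat.Agent.H54.Cft IntermediateField
open Fermat.Agent.H76.Cft (QS ES IsPlaceOutside)

noncomputable section

/-- `ℚ̄ / ℚ` is Galois (for the algebra instance found by instance search). -/
theorem isGalois_Qbar_dg : IsGalois ℚ Qbar := by
  have h : (DivisionRing.toRatAlgebra : Algebra ℚ (AlgebraicClosure ℚ)) =
      AlgebraicClosure.instAlgebra ℚ := Subsingleton.elim _ _
  show @IsGalois ℚ _ (AlgebraicClosure ℚ) _ DivisionRing.toRatAlgebra
  rw [h]
  infer_instance

/-- The fixing subgroup of a finite extension of `ℚ` has finite index in `G_ℚ`. -/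
theorem finiteIndex_fixingSubgroup_dg (F : IntermediateField ℚ Qbar)
    [FiniteDimensional ℚ F] : F.fixingSubgroup.FiniteIndex := by
  haveI := isGalois_Qbar_dg
  refine ⟨?_⟩
  rw [← IntermediateField.finrank_eq_fixingSubgroup_index]
  exact Module.finrank_pos.ne'

/-- A function on `G_K` which is right-invariant under `G_F ∩ G_K`, `F/ℚ` finite, has finitely
many values. -/
theorem finite_range_of_level {K F : IntermediateField ℚ Qbar} [FiniteDimensional ℚ F]
    {X : Type} (b : GalL K → X)
    (hinv : ∀ g n : GalL K, (n : GQ) ∈ F.fixingSubgroup → b (g * n) = b g) :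
    (Set.range b).Finite := by
  classical
  haveI : F.fixingSubgroup.FiniteIndex := finiteIndex_fixingSubgroup_dg F
  let N : Subgroup (GalL K) := F.fixingSubgroup.subgroupOf K.fixingSubgroup
  haveI hNfin : N.FiniteIndex := inferInstance
  have hmemN : ∀ n : GalL K, n ∈ N ↔ (n : GQ) ∈ F.fixingSubgroup :=
    fun n => Subgroup.mem_subgroupOf
  let bbar : GalL K ⧸ N → X := Quotient.lift b (by
    intro g h hgh
    have h1 : g⁻¹ * h ∈ N := QuotientGroup.leftRel_apply.mp hgh
    have h2 := hinv g (g⁻¹ * h) ((hmemN _).mp h1)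
    rw [mul_inv_cancel_left] at h2
    exact h2.symm)
  haveI : Finite (GalL K ⧸ N) := Subgroup.finite_quotient_of_finiteIndex
  refine (Set.finite_range bbar).subset ?_
  rintro x ⟨g, rfl⟩
  exact ⟨(g : GalL K ⧸ N), rfl⟩

/-- **The level field** of an `S`-level cochain with values in `ℚ_S`. -/
theorem exists_level_field {S : Finset Nat.Primes} {K : IntermediateField ℚ Qbar}
    (b : GalL K → Qbarˣ) (hb : IsSLvl₁ S K b) (hbQ : ∀ g, ((b g : Qbarˣ) : Qbar) ∈ QS S) :
    ∃ F : IntermediateField ℚ Qbar, FiniteDimensional ℚ F ∧ Normal ℚ F ∧ F ≤ QS S ∧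
      (∀ g n : GalL K, (n : GQ) ∈ F.fixingSubgroup → b (g * n) = b g) ∧
      ∀ g, ((b g : Qbarˣ) : Qbar) ∈ F := by
  classical
  haveI := isGalois_Qbar_dg
  obtain ⟨F₀, hF₀, hinv⟩ := hb
  haveI : FiniteDimensional ℚ F₀ := hF₀.1
  have hfin : (Set.range fun g : GalL K => ((b g : Qbarˣ) : Qbar)).Finite := by
    have h1 := finite_range_of_level (F := F₀) b hinv
    have h2 : (Set.range fun g : GalL K => ((b g : Qbarˣ) : Qbar)) =
        (fun u : Qbarˣ => (u : Qbar)) '' Set.range b := by
      ext x
      constructor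
      · rintro ⟨g, rfl⟩
        exact ⟨b g, ⟨g, rfl⟩, rfl⟩
      · rintro ⟨u, ⟨g, rfl⟩, rfl⟩
        exact ⟨g, rfl⟩
    rw [h2]
    exact h1.image _
  set R : Set Qbar := Set.range fun g : GalL K => ((b g : Qbarˣ) : Qbar) with hR
  haveI : Finite R := hfin.to_subtype
  haveI : FiniteDimensional ℚ (IntermediateField.adjoin ℚ R) :=
    IntermediateField.finiteDimensional_adjoin
      (fun x _ => ((AlgebraicClosure.isAlgebraic ℚ).isAlgebraic x).isIntegral)
  set E : IntermediateField ℚ Qbar := F₀ ⊔ IntermediateField.adjoin ℚ R with hE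
  haveI : FiniteDimensional ℚ E := IntermediateField.finiteDimensional_sup _ _
  have hF₀Q : F₀ ≤ QS S :=
    le_iSup (fun F : {F : IntermediateField ℚ Qbar // F.IsUnramifiedOutside S} => F.1)
      ⟨F₀, hF₀⟩
  have hEQ : E ≤ QS S := by
    refine sup_le hF₀Q ?_
    rw [IntermediateField.adjoin_le_iff]
    rintro x ⟨g, rfl⟩
    exact hbQ g
  refine ⟨IntermediateField.normalClosure ℚ E Qbar, normalClosure.is_finiteDimensional ℚ E Qbar,
    normalClosure.normal ℚ E Qbar, ?_, ?_, ?_⟩
  · haveI : Normal ℚ Qbar := IsGalois.to_normal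
    refine (IntermediateField.normalClosure_def'' E).le.trans (iSup_le fun g => ?_)
    intro x hx
    obtain ⟨y, hy, rfl⟩ := (IntermediateField.mem_map E).mp hx
    exact Fermat.Agent.H96.Cft.apply_mem_QS S g (hEQ hy)
  · intro g n hn
    refine hinv g n ?_
    exact IntermediateField.fixingSubgroup_antitone
      ((le_sup_left : F₀ ≤ E).trans (IntermediateField.le_normalClosure E)) hn
  · intro g
    apply IntermediateField.le_normalClosure E
    exact (le_sup_right : IntermediateField.adjoin ℚ R ≤ E)
      (IntermediateField.subset_adjoin ℚ R ⟨g, rfl⟩)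

end

end Fermat.Agent.H90.DivGlue
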